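import Mathlib
import Fermat.Agent.LT.T7.H193.ProjSpec

/-!
# Row LT, tower T7, node T7.L2.1 `SupplyC`, sub-station PROJ: leaf PROJ.5 = `PosScalC` (helper195)

OFF-MAIN.  Registry row 2142 (T7.L2.1.P07).  Spec: `LT/T7/H193/ProjSpec.lean` (helper193,
sha256 977a85e3), byte-identical copy.

`posScalC195 K : H193.PosScalC K` -- the positive scalars at infinity: the continuous central
homomorphism `a : ℝ^{places at ∞} → GL₂(𝔸_K)`, `a(t)_w = exp (t w)`, `a(t)_v = 1`.

Construction: `realTo195 w : ℝ →+* K_w` (inverse of the isometric isomorphism `K_w ≃ ℝ` at a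
real place, of `K_w ≃ ℂ` composed with `ℝ → ℂ` at a complex place); the idele
`zU195 t = ((realTo195 w (exp (t w)))_w, 1)`; `a t` = the scalar matrix of `zU195 t`.
-/

set_option autoImplicit false

open IsDedekindDomain NumberField

noncomputable section

namespace Fermat.Agent.LT.T7.H195

open Fermat.Agent.LT.H556 Fermat.Agent.LT.H556.A0 Fermat.Agent.LT

variable {K : Type} [Field K] [NumberField K]

/-- The real numbers inside the completion at the infinite place `w`. -/
def realTo195 (w : InfinitePlace K) : ℝ →+* w.Completion :=
  haveI : Decidable w.IsReal := Classical.propDecidable _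
  if hw : w.IsReal then
    (InfinitePlace.Completion.ringEquivRealOfIsReal hw).symm.toRingHom
  else
    ((InfinitePlace.Completion.ringEquivComplexOfIsComplex
        (InfinitePlace.not_isReal_iff_isComplex.mp hw)).symm.toRingHom).comp Complex.ofRealHom

omit [NumberField K] in
theorem extensionEmbedding_realTo195 (w : InfinitePlace K) (r : ℝ) :
    InfinitePlace.Completion.extensionEmbedding w (realTo195 w r) = (r : ℂ) := by
  unfold realTo195
  by_cases hw : w.IsReal
  · rw [dif_pos hw]
    rw [← InfinitePlace.Completion.extensionEmbeddingOfIsReal_apply hw]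
    congr 1
    exact (InfinitePlace.Completion.ringEquivRealOfIsReal hw).apply_symm_apply r
  · rw [dif_neg hw]
    exact (InfinitePlace.Completion.ringEquivComplexOfIsComplex
      (InfinitePlace.not_isReal_iff_isComplex.mp hw)).apply_symm_apply (r : ℂ)

omit [NumberField K] in
theorem continuous_realTo195 (w : InfinitePlace K) : Continuous (realTo195 w) := by
  have hind := (InfinitePlace.Completion.isometry_extensionEmbedding w).isEmbedding.toIsInducing
  rw [hind.continuous_iff]
  have : (InfinitePlace.Completion.extensionEmbedding w) ∘ (realTo195 w)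
      = fun r : ℝ => (r : ℂ) := by
    funext r
    exact extensionEmbedding_realTo195 w r
  rw [this]
  exact Complex.continuous_ofReal

/-- The adele `((exp (t w))_w, 1)`. -/
def zAd195 (t : InfinitePlace K → ℝ) : Adl K :=
  (fun w => realTo195 w (Real.exp (t w)), 1)

theorem zAd195_add (s t : InfinitePlace K → ℝ) : zAd195 (s + t) = zAd195 s * zAd195 t := by
  unfold zAd195
  refine Prod.ext ?_ ?_
  · funext w
    show realTo195 w (Real.exp ((s + t) w))
      = realTo195 w (Real.exp (s w)) * realTo195 w (Real.exp (t w))
    rw [Pi.add_apply, Real.exp_add, map_mul]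
  · show (1 : FiniteAdeleRing (𝓞 K) K) = 1 * 1
    rw [mul_one]

theorem zAd195_zero : zAd195 (0 : InfinitePlace K → ℝ) = 1 := by
  unfold zAd195
  refine Prod.ext ?_ ?_
  · funext w
    show realTo195 w (Real.exp ((0 : InfinitePlace K → ℝ) w)) = 1
    rw [Pi.zero_apply, Real.exp_zero, map_one]
  · rfl

theorem continuous_zAd195 : Continuous (zAd195 (K := K)) := by
  unfold zAd195
  refine Continuous.prodMk ?_ continuous_const
  refine continuous_pi fun w => ?_
  exact (continuous_realTo195 w).comp (Real.continuous_exp.comp (continuous_apply w))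

/-- The idele `((exp (t w))_w, 1)`. -/
def zU195 (t : InfinitePlace K → ℝ) : (Adl K)ˣ where
  val := zAd195 t
  inv := zAd195 (-t)
  val_inv := by rw [← zAd195_add, add_neg_cancel, zAd195_zero]
  inv_val := by rw [← zAd195_add, neg_add_cancel, zAd195_zero]

theorem zU195_add (s t : InfinitePlace K → ℝ) : zU195 (s + t) = zU195 s * zU195 t :=
  Units.ext (zAd195_add s t)

theorem continuous_zU195 : Continuous (zU195 (K := K)) := by
  rw [Units.continuous_iff]
  refine ⟨continuous_zAd195, ?_⟩
  exact continuous_zAd195.comp continuous_neg

/-- The positive scalar `a t` at infinity. -/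
def aScal195 (t : InfinitePlace K → ℝ) : G K :=
  Units.map (Matrix.scalar (Fin 2) : Adl K →+* Matrix (Fin 2) (Fin 2) (Adl K)).toMonoidHom
    (zU195 t)

theorem aScal195_val (t : InfinitePlace K → ℝ) :
    ((aScal195 t : G K) : Matrix (Fin 2) (Fin 2) (Adl K)) = Matrix.scalar (Fin 2) (zAd195 t) :=
  rfl

theorem continuous_aScal195 : Continuous (aScal195 (K := K)) := by
  unfold aScal195
  refine (Continuous.units_map _ ?_).comp continuous_zU195
  exact continuous_id.matrix_diagonal.comp (continuous_pi fun _ => continuous_id)

theorem aScal195_entry (t : InfinitePlace K → ℝ) (i j : Fin 2) :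
    ((aScal195 t : G K) : Matrix (Fin 2) (Fin 2) (Adl K)) i j
      = if i = j then zAd195 t else 0 := by
  rw [aScal195_val]
  simp [Matrix.scalar_apply, Matrix.diagonal_apply]

/-- **LEAF PROJ.5 = POS-SCAL** (`H193.PosScalC`, verbatim). -/
theorem posScalC195 (K : Type) [Field K] [NumberField K] : H193.PosScalC K := by
  refine ⟨aScal195, continuous_aScal195, ?_, ?_, ?_, ?_⟩
  · intro s t
    unfold aScal195
    rw [zU195_add, map_mul]
  · intro t w
    funext i j
    unfold infComp
    rw [aScal195_entry]
    by_cases hij : i = j
    · subst hij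
      simp only [if_true, Matrix.diagonal_apply_eq]
      exact extensionEmbedding_realTo195 w (Real.exp (t w))
    · simp only [if_neg hij, Matrix.diagonal_apply_ne _ hij]
      exact map_zero _
  · intro t v
    unfold TrivAtFin finComp
    funext i j
    rw [aScal195_entry]
    by_cases hij : i = j
    · subst hij
      simp only [if_true, Matrix.one_apply_eq]
      rfl
    · simp only [if_neg hij, Matrix.one_apply_ne hij]
      rfl
  · intro t g
    apply Units.ext
    rw [Units.val_mul, Units.val_mul, aScal195_val]
    exact (Matrix.scalar_commute (zAd195 t) (fun r => Commute.all _ r) _).eq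

end Fermat.Agent.LT.T7.H195

end
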